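import Fermat.Agent.H63.SS2.Interfaces
import Fermat.Agent.H69.DegreeC
import Fermat.Agent.H65.EsC.DegreeAlpha
import Fermat.Agent.H57.Gamma0Index
import Fermat.Agent.H41.AtkinLehnerBar
import Fermat.Agent.H9.ESD.LevelChangeFinal

/-!
# P-SS2, row 1017 (SS2-J5B DEG-B): the degree of `β : t ↦ t ^ q` is `q` for `q ∣ L` (helper27)

`finrankAlong ℂ (heckeBetaBar ℂ L q) = q` for `q` prime, `q ∣ L`; unconditional.  By-product:
`finrankAlong ℂ (heckeAlphaBar ℂ L q) = q` (DEG-A).

Proof.  `[FC N' : FC N] · ψ(N) = ψ(N')` for `N ∣ N'` (the degree statement `DEG-C` over `ℂ(j)`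
and the tower law).  The square
`β_{L,q} ∘ (FC 1 ⊆ FC L) = (FC (1 q) ⊆ FC (L q)) ∘ β_{1,q}` commutes, the degree is multiplicative
in towers, and `deg β_{1,q} = deg α_{1,q}` by the Atkin–Lehner automorphism of level `q`.  Hence
`[FC L : FC 1] · deg β_{L,q} = [FC (L q) : FC 1] = [FC L : FC 1] · q`.
-/

set_option autoImplicit false
set_option linter.style.haveILetI false

noncomputable section

open AlgebraicCurve ModularCurve IntermediateField
open scoped MatrixGroups

namespace Fermat.Agent.H27.SS2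

open Fermat.Agent.H23.EsA

/-- The degree along a composition is the product of the degrees. -/
theorem finrankAlong_comp {K F F' F'' : Type*} [Field K] [Field F] [Field F'] [Field F'']
    [Algebra K F] [Algebra K F'] [Algebra K F''] (φ : F →ₐ[K] F') (ψ : F' →ₐ[K] F'') :
    finrankAlong K (ψ.comp φ) = finrankAlong K φ * finrankAlong K ψ := by
  unfold finrankAlong
  letI i1 : Algebra F F' := algebraAlong φ
  letI i2 : Algebra F' F'' := algebraAlong ψ
  letI i3 : Algebra F F'' := algebraAlong (ψ.comp φ)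
  haveI : IsScalarTower F F' F'' := IsScalarTower.of_algebraMap_eq fun _ => rfl
  exact (Module.finrank_mul_finrank F F' F'').symm

/-- `FC N ≤ FC N'` for `N ∣ N'`. -/
theorem fc_le {N N' : ℕ} [NeZero N] [NeZero N'] (h : N ∣ N') : FC N ≤ FC N' :=
  Fermat.Agent.H9.ESD.lc_laurentBaseChange_mono ℂ (full_degeneracy_le h)

/-- The element `j` of the ambient field. -/
def jE : LaurentSeries ℂ := coeffEmb ℂ (qExpand ℚ 1 jq)

theorem adjoin_jE_le (N : ℕ) [NeZero N] : ℂ⟮jE⟯ ≤ FC N := by
  rw [IntermediateField.adjoin_le_iff]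
  rintro _ rfl
  exact (jC N 1 (one_dvd N)).2

/-- **DEG-C** in the ambient field: `[FC N : ℂ(j)] = ψ(N)`. -/
theorem relfinrank_jE (N : ℕ) [NeZero N] :
    IntermediateField.relfinrank ℂ⟮jE⟯ (FC N) = dedekindPsi N := by
  obtain ⟨-, -, h1⟩ := Fermat.Agent.H69.DegC.degreeC N
  rw [Fermat.Agent.H65.finrank_adjoin_coe_eq_relfinrank] at h1
  have h2 : Nat.card (SL(2, ℤ) ⧸ CongruenceSubgroup.Gamma0 N) = dedekindPsi N :=
    Fermat.Agent.H57.index_Gamma0 N
  rw [h2] at h1
  exact h1

theorem dedekindPsi_pos' (N : ℕ) [NeZero N] : 0 < dedekindPsi N := by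
  rw [← Fermat.Agent.H57.index_Gamma0 N]
  have : (CongruenceSubgroup.Gamma0 N).FiniteIndex := inferInstance
  exact Nat.pos_of_ne_zero (Subgroup.FiniteIndex.index_ne_zero)

/-- `[FC N' : FC N] · ψ(N) = ψ(N')` for `N ∣ N'`. -/
theorem relfinrank_fc_mul {N N' : ℕ} [NeZero N] [NeZero N'] (h : N ∣ N') :
    dedekindPsi N * IntermediateField.relfinrank (FC N) (FC N') = dedekindPsi N' := by
  have hmul := IntermediateField.relfinrank_mul_relfinrank (adjoin_jE_le N) (fc_le h)
  rw [relfinrank_jE N, relfinrank_jE N'] at hmul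
  exact hmul

theorem relfinrank_fc_ne_zero {N N' : ℕ} [NeZero N] [NeZero N'] (h : N ∣ N') :
    IntermediateField.relfinrank (FC N) (FC N') ≠ 0 := by
  intro h0
  have h1 := relfinrank_fc_mul h
  rw [h0, mul_zero] at h1
  exact absurd h1.symm (dedekindPsi_pos' N').ne'

/-- `[FC (L q) : FC L] = q` for `q` prime, `q ∣ L`. -/
theorem relfinrank_fc_mul_prime_of_dvd (L q : ℕ) [NeZero L] [NeZero q] (hq : q.Prime)
    (hqL : q ∣ L) [NeZero (L * q)] :
    IntermediateField.relfinrank (FC L) (FC (L * q)) = q := by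
  have h1 := relfinrank_fc_mul (N := L) (N' := L * q) (dvd_mul_right L q)
  rw [Fermat.Agent.H57.dedekindPsi_mul_prime_of_dvd (NeZero.ne L) hq hqL, mul_comm] at h1
  exact Nat.eq_of_mul_eq_mul_right (dedekindPsi_pos' L) h1

/-- **DEG-A** (unconditional). -/
theorem degDegreeA : Fermat.Agent.H63.SS2.DegDegreeAStatement := by
  intro L q _ _ hq hqL
  haveI : NeZero (L * q) := ⟨Nat.mul_ne_zero (NeZero.ne L) (NeZero.ne q)⟩
  have hα : heckeAlphaBar ℂ L q = IntermediateField.inclusion (fc_le (dvd_mul_right L q)) := rfl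
  rw [hα, Fermat.Agent.H65.finrankAlong_inclusion_eq_relfinrank]
  exact relfinrank_fc_mul_prime_of_dvd L q hq hqL

/-- The degree of `β` at level `1` is the degree of `α` (Atkin–Lehner). -/
theorem finrankAlong_beta_one (q : ℕ) [NeZero q] :
    finrankAlong ℂ (heckeBetaBar ℂ 1 q) = finrankAlong ℂ (heckeAlphaBar ℂ 1 q) := by
  obtain ⟨W, hWα, -⟩ := Fermat.Agent.H41.exists_atkinLehnerC 1 q (Nat.coprime_one_left q)
  unfold finrankAlong
  symm
  exact @Algebra.finrank_eq_of_equiv_equiv _ _ _ _ (algebraAlong (heckeAlphaBar ℂ 1 q))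
    _ _ _ _ (algebraAlong (heckeBetaBar ℂ 1 q)) (RingEquiv.refl _) W.toRingEquiv
    (RingHom.ext fun x => (hWα x).symm)

/-- **DEG-B** (row 1017), unconditional. -/
theorem degDegreeB : Fermat.Agent.H63.SS2.DegDegreeBStatement := by
  intro L q _ _ hq hqL
  haveI : NeZero (L * q) := ⟨Nat.mul_ne_zero (NeZero.ne L) (NeZero.ne q)⟩
  haveI : NeZero (1 * q) := ⟨by rw [one_mul]; exact NeZero.ne q⟩
  have h1L : FC 1 ≤ FC L := fc_le (one_dvd L)
  have hqLq : FC (1 * q) ≤ FC (L * q) := fc_le (Nat.mul_dvd_mul_right (one_dvd L) q)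
  have h1q : FC 1 ≤ FC (1 * q) := fc_le (dvd_mul_right 1 q)
  have hLLq : FC L ≤ FC (L * q) := fc_le (dvd_mul_right L q)
  -- the commutative square
  have hsq : (heckeBetaBar ℂ L q).comp (IntermediateField.inclusion h1L)
      = (IntermediateField.inclusion hqLq).comp (heckeBetaBar ℂ 1 q) := by
    apply AlgHom.ext
    intro x
    apply Subtype.ext
    rw [AlgHom.comp_apply, AlgHom.comp_apply, coe_heckeBetaBar,
      IntermediateField.coe_inclusion, IntermediateField.coe_inclusion, coe_heckeBetaBar]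
  have e1 := finrankAlong_comp (IntermediateField.inclusion h1L) (heckeBetaBar ℂ L q)
  have e2 := finrankAlong_comp (heckeBetaBar ℂ 1 q) (IntermediateField.inclusion hqLq)
  rw [hsq, e2, finrankAlong_beta_one q] at e1
  have hα1 : heckeAlphaBar ℂ 1 q = IntermediateField.inclusion h1q := rfl
  rw [hα1, Fermat.Agent.H65.finrankAlong_inclusion_eq_relfinrank,
    Fermat.Agent.H65.finrankAlong_inclusion_eq_relfinrank,
    Fermat.Agent.H65.finrankAlong_inclusion_eq_relfinrank,
    IntermediateField.relfinrank_mul_relfinrank h1q hqLq,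
    ← IntermediateField.relfinrank_mul_relfinrank h1L hLLq,
    relfinrank_fc_mul_prime_of_dvd L q hq hqL] at e1
  exact (Nat.eq_of_mul_eq_mul_left
    (Nat.pos_of_ne_zero (relfinrank_fc_ne_zero (one_dvd L))) e1).symm

end Fermat.Agent.H27.SS2

end
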